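import Fermat.Agent.S17.North.AtPackets

/-!
# B.15 (Northcott) for stable effective divisors, projective form (PROJECT H, seam S-9 glue)

`North/AtPackets.lean` without the normalisation `xt P i0 = 1`: it is enough that the `i0`-th
coordinate of the lifts does not vanish on the set `s` of points and that the lifts of distinct
points of `s` are not proportional; the height `∑_P n_P · totalLam (xt P)` of a stable divisor does
not change under the equivariant rescaling `xt P ↦ (xt P i0)⁻¹ • xt P` (product formula).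
-/

set_option autoImplicit false

namespace Fermat.Agent.S17.North

open Fermat.Agent.S17.Ht

variable {ι : Type*} [Finite ι] {X : Type*} [MulAction GQ X]

omit [Finite ι] in
/-- the rescaled lifts are equivariant -/
lemma equivarT_inv_smul {xt : X → ι → Qbar} (hE : EquivarT xt) (i0 : ι) :
    EquivarT fun P => (xt P i0)⁻¹ • xt P := by
  intro σ P i
  simp only [Pi.smul_apply, smul_eq_mul]
  rw [hE σ P i0, hE σ P i, map_mul, map_inv₀]

/-- the height of a stable divisor is invariant under the rescaling -/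
lemma sum_mul_totalLam_inv_smul {D : X →₀ ℤ} (hD : Stable D) {xt : X → ι → Qbar}
    (hE : EquivarT xt) (i0 : ι) (h0 : ∀ P ∈ D.support, xt P i0 ≠ 0) :
    ∑ P ∈ D.support, (D P : ℝ) * totalLam ((xt P i0)⁻¹ • xt P)
      = ∑ P ∈ D.support, (D P : ℝ) * totalLam (xt P) := by
  have hf : Equivar fun P => (xt P i0)⁻¹ := (hE.apply i0).inv
  have h1 := sum_mul_totalLog_eq_zero hD hf fun P hP => inv_ne_zero (h0 P hP)
  have h2 : ∀ P ∈ D.support, (D P : ℝ) * totalLam ((xt P i0)⁻¹ • xt P)
      = (D P : ℝ) * totalLog ((xt P i0)⁻¹) + (D P : ℝ) * totalLam (xt P) := by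
    intro P hP
    have hx : xt P ≠ 0 := fun h => h0 P hP (by rw [h]; rfl)
    rw [totalLam_smul (inv_ne_zero (h0 P hP)) hx]
    ring
  rw [Finset.sum_congr rfl h2, Finset.sum_add_distrib, h1, zero_add]

/-- **B.15 = H0.20, divisor form, projective lifts.** -/
theorem finite_of_sum_mul_totalLam_le_proj {Γ : Type*} (Dx : Γ → X →₀ ℤ)
    (hinj : Function.Injective Dx) (hpos : ∀ x P, 0 ≤ Dx x P) (hstab : ∀ x, Stable (Dx x))
    (g : ℕ) (hdeg : ∀ x, ∑ P ∈ (Dx x).support, Dx x P ≤ g) (s : Set X)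
    (hs : ∀ x, ∀ P ∈ (Dx x).support, P ∈ s) (xt : X → ι → Qbar) (hE : EquivarT xt) (i0 : ι)
    (h0 : ∀ P ∈ s, xt P i0 ≠ 0)
    (hproj : ∀ P ∈ s, ∀ R ∈ s, ∀ a : Qbar, xt P = a • xt R → P = R) (B : ℝ) :
    {x : Γ | ∑ P ∈ (Dx x).support, (Dx x P : ℝ) * totalLam (xt P) ≤ B}.Finite := by
  have hinjOn : Set.InjOn (fun P => (xt P i0)⁻¹ • xt P) s := by
    intro P hP R hR hPR
    simp only at hPR
    refine hproj P hP R hR (xt P i0 * (xt R i0)⁻¹) ?_
    calc xt P = xt P i0 • ((xt P i0)⁻¹ • xt P) := by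
          rw [smul_smul, mul_inv_cancel₀ (h0 P hP), one_smul]
      _ = xt P i0 • ((xt R i0)⁻¹ • xt R) := by rw [hPR]
      _ = (xt P i0 * (xt R i0)⁻¹) • xt R := by rw [smul_smul]
  have h := finite_of_sum_mul_totalLam_le Dx hinj hpos hstab g hdeg s hs
    (fun P => (xt P i0)⁻¹ • xt P) hinjOn (equivarT_inv_smul hE i0) i0
    (fun P hP => by
      simp only [Pi.smul_apply, smul_eq_mul]
      exact inv_mul_cancel₀ (h0 P hP)) B
  refine h.subset fun x hx => ?_
  simp only [Set.mem_ofPred_eq] at hx ⊢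
  rw [sum_mul_totalLam_inv_smul (hstab x) hE i0 fun P hP => h0 P (hs x P hP)]
  exact hx

end Fermat.Agent.S17.North
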