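import Mathlib

/-!
# Elementary local facts about rational numbers (PROJECT H scratch, seam S-9, Mathlib only)

For `c : ℚ` and a prime `p`: `max 1 |c|_p = p ^ v_p(den c)`, hence
`∑ᶠ p, log (max 1 |c|_p) = log (den c)`, and
`log (max 1 |c|) + ∑ᶠ p, log (max 1 |c|_p) = log (max |num c| (den c))`.
-/

set_option autoImplicit false

namespace Fermat.Agent.S17.North

open Real

/-- `max 1 |c|_p = p ^ v_p(den c)`. -/
lemma max_one_padicNorm_eq (p : ℕ) [hp : Fact p.Prime] (c : ℚ) :
    max 1 ((padicNorm p c : ℚ) : ℝ) = (p : ℝ) ^ (padicValNat p c.den) := by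
  by_cases hc : c = 0
  · subst hc
    simp [padicNorm]
  have hp1 : (1 : ℝ) < p := by exact_mod_cast hp.out.one_lt
  have hval : padicValRat p c = (padicValInt p c.num : ℤ) - (padicValNat p c.den : ℤ) := by
    rw [padicValRat_def]
  rw [padicNorm.eq_zpow_of_nonzero hc]
  by_cases hd : p ∣ c.den
  · -- then p ∤ num
    have hnum : ¬ (p : ℤ) ∣ c.num := by
      intro h
      have h1 : p ∣ c.num.natAbs := Int.natCast_dvd.mp h
      have h2 : p ∣ Nat.gcd c.num.natAbs c.den := Nat.dvd_gcd h1 hd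
      rw [c.reduced] at h2
      exact hp.out.one_lt.ne' (Nat.dvd_one.mp h2)
    have hv0 : padicValInt p c.num = 0 := padicValInt.eq_zero_of_not_dvd hnum
    have hneg : -padicValRat p c = ((padicValNat p c.den : ℕ) : ℤ) := by
      rw [hval, hv0]; simp
    rw [hneg, Rat.cast_zpow, Rat.cast_natCast, zpow_natCast]
    exact max_eq_right (one_le_pow₀ hp1.le)
  · have hv0 : padicValNat p c.den = 0 := padicValNat.eq_zero_of_not_dvd hd
    have hneg : -padicValRat p c = -((padicValInt p c.num : ℕ) : ℤ) := by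
      rw [hval, hv0]; simp
    rw [hneg, hv0, pow_zero, Rat.cast_zpow, Rat.cast_natCast, zpow_neg, zpow_natCast]
    refine max_eq_left ?_
    exact inv_le_one_of_one_le₀ (one_le_pow₀ hp1.le)

/-- The local log factor of a rational number at a prime: `log (max 1 |c|_p)`. -/
noncomputable def lpf (c : ℚ) (p : Nat.Primes) : ℝ :=
  Real.log (max 1 ((padicNorm p c : ℚ) : ℝ))

lemma lpf_eq (c : ℚ) (p : Nat.Primes) :
    lpf c p = (padicValNat p c.den : ℝ) * Real.log (p : ℕ) := by
  have : Fact (p : ℕ).Prime := ⟨p.2⟩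
  rw [lpf, max_one_padicNorm_eq, Real.log_pow]

lemma lpf_nonneg (c : ℚ) (p : Nat.Primes) : 0 ≤ lpf c p := by
  rw [lpf_eq]
  exact mul_nonneg (Nat.cast_nonneg _) (Real.log_nonneg (by exact_mod_cast p.2.one_lt.le))

/-- The primes dividing `b`, as a `Finset Nat.Primes`. -/
def primesOf (b : ℕ) : Finset Nat.Primes := Finset.subtype Nat.Prime b.primeFactors

lemma mem_primesOf {b : ℕ} {p : Nat.Primes} : p ∈ primesOf b ↔ (p : ℕ) ∈ b.primeFactors :=
  Finset.mem_subtype

lemma lpf_eq_zero_of_notMem {c : ℚ} {p : Nat.Primes} (hp : p ∉ primesOf c.den) : lpf c p = 0 := by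
  rw [lpf_eq]
  rw [mem_primesOf, Nat.mem_primeFactors] at hp
  have hnd : ¬ (p : ℕ) ∣ c.den := fun h => hp ⟨p.2, h, c.den_nz⟩
  rw [padicValNat.eq_zero_of_not_dvd hnd]; simp

lemma padicNorm_le_one_of_notMem {c : ℚ} {p : Nat.Primes} (hp : p ∉ primesOf c.den) :
    ((padicNorm p c : ℚ) : ℝ) ≤ 1 := by
  have : Fact (p : ℕ).Prime := ⟨p.2⟩
  have h := max_one_padicNorm_eq p c
  rw [mem_primesOf, Nat.mem_primeFactors] at hp
  have hnd : ¬ (p : ℕ) ∣ c.den := fun h => hp ⟨p.2, h, c.den_nz⟩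
  rw [padicValNat.eq_zero_of_not_dvd hnd, pow_zero] at h
  exact (le_max_right _ _).trans_eq h

lemma support_lpf_subset (c : ℚ) :
    Function.support (lpf c) ⊆ ↑(primesOf c.den) := by
  intro p hp
  by_contra hnot
  exact hp (lpf_eq_zero_of_notMem hnot)

/-- `∑_p log (max 1 |c|_p) = log (den c)`. -/
lemma finsum_lpf (c : ℚ) : ∑ᶠ p : Nat.Primes, lpf c p = Real.log c.den := by
  rw [finsum_eq_sum_of_support_subset _ (support_lpf_subset c)]
  rw [Real.log_nat_eq_sum_factorization, Finsupp.sum]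
  rw [Nat.support_factorization]
  have h1 : ∑ p ∈ primesOf c.den, lpf c p
      = ∑ p ∈ primesOf c.den,
          (fun q : ℕ => (c.den.factorization q : ℝ) * Real.log q) (p : ℕ) := by
    refine Finset.sum_congr rfl fun p _ => ?_
    rw [lpf_eq]
    simp only
    rw [Nat.factorization_def _ p.2]
  rw [h1, primesOf]
  have := Finset.sum_subtype_eq_sum_filter (s := c.den.primeFactors) (p := Nat.Prime)
    (fun q : ℕ => (c.den.factorization q : ℝ) * Real.log q)
  refine this.trans ?_
  refine Finset.sum_congr ?_ fun _ _ => rfl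
  ext q
  simp only [Finset.mem_filter, Nat.mem_primeFactors]
  tauto

/-- `max 1 |c| * den c = max |num c| (den c)`. -/
lemma max_one_abs_mul_den (c : ℚ) :
    max 1 |(c : ℝ)| * (c.den : ℝ) = max (c.num.natAbs : ℝ) (c.den : ℝ) := by
  have hd : (0 : ℝ) < c.den := by exact_mod_cast c.den_pos
  have habs : |(c : ℝ)| * (c.den : ℝ) = (c.num.natAbs : ℝ) := by
    have h1 : (c : ℝ) = (c.num : ℝ) / (c.den : ℝ) := by
      exact_mod_cast (Rat.num_div_den c).symm
    rw [h1, abs_div, abs_of_pos hd, div_mul_cancel₀ _ hd.ne', Nat.cast_natAbs, Int.cast_abs]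
  rw [max_mul_of_nonneg _ _ hd.le, one_mul, habs, max_comm]

/-- The naive height of a rational number through its local factors. -/
lemma log_max_num_den (c : ℚ) :
    Real.log (max (c.num.natAbs : ℝ) (c.den : ℝ))
      = Real.log (max 1 |(c : ℝ)|) + ∑ᶠ p : Nat.Primes, lpf c p := by
  have hd : (0 : ℝ) < c.den := by exact_mod_cast c.den_pos
  rw [finsum_lpf, ← max_one_abs_mul_den,
    Real.log_mul (lt_of_lt_of_le zero_lt_one (le_max_left _ _)).ne' hd.ne']

end Fermat.Agent.S17.North
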