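import Mathlib
import Fermat.Agent.S17.North.RatLocal

/-!
# Northcott for Galois-stable packets (PROJECT H scratch, seam S-9, Mathlib only)

`Qb` is a Galois extension of `ℚ` (in the application: `AlgebraicClosure ℚ`) with ONE fixed
absolute value `abv v` for every place `v : Option Nat.Primes` of `ℚ` (`none` = archimedean).
For a finite multiset `S ⊆ Qb` stable under `Gal(Qb/ℚ)` the polynomial `∏_{a ∈ S} (T - a)` is
rational; Gauss' lemma at the finite places and Mahler's inequality at the archimedean place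
bound the naive height of every coefficient by the *packet height*
`∑_v ∑_{a ∈ S} log⁺ |a|_v`; hence only finitely many algebraic numbers occur in packets of
bounded size and bounded packet height.
-/

set_option autoImplicit false

namespace Fermat.Agent.S17.North

open Polynomial

/-! ### The polynomial with prescribed roots -/

section RootPoly

variable {K : Type*} [Field K]

/-- `∏_{a ∈ S} (X - a)`. -/
noncomputable def rootPoly (S : Multiset K) : K[X] := (S.map fun a => X - C a).prod

@[simp] lemma rootPoly_zero : rootPoly (0 : Multiset K) = 1 := by simp [rootPoly]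

@[simp] lemma rootPoly_cons (a : K) (S : Multiset K) :
    rootPoly (a ::ₘ S) = (X - C a) * rootPoly S := by simp [rootPoly]

lemma monic_rootPoly (S : Multiset K) : (rootPoly S).Monic :=
  monic_multiset_prod_of_monic _ _ fun a _ => monic_X_sub_C a

lemma natDegree_rootPoly (S : Multiset K) : (rootPoly S).natDegree = Multiset.card S :=
  natDegree_multiset_prod_X_sub_C_eq_card S

lemma roots_rootPoly (S : Multiset K) : (rootPoly S).roots = S :=
  roots_multiset_prod_X_sub_C S

lemma rootPoly_ne_zero (S : Multiset K) : rootPoly S ≠ 0 := (monic_rootPoly S).ne_zero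

lemma map_rootPoly {L : Type*} [Field L] (φ : K →+* L) (S : Multiset K) :
    (rootPoly S).map φ = rootPoly (S.map φ) := by
  induction S using Multiset.induction_on with
  | empty => simp
  | cons a S ih => simp [Polynomial.map_mul, ih]

lemma coeff_rootPoly_map {L : Type*} [Field L] (φ : K →+* L) (S : Multiset K) (i : ℕ) :
    φ ((rootPoly S).coeff i) = (rootPoly (S.map φ)).coeff i := by
  rw [← map_rootPoly, coeff_map]

/-! ### Gauss' lemma at a nonarchimedean absolute value -/

lemma gaussNorm_X_sub_C (v : AbsoluteValue K ℝ) (a : K) :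
    (X - C a : K[X]).gaussNorm v 1 = max 1 (v a) := by
  apply le_antisymm
  · obtain ⟨i, hi⟩ := (X - C a : K[X]).exists_eq_gaussNorm v 1
    rw [hi, one_pow, mul_one, coeff_sub, coeff_X, coeff_C]
    rcases Nat.lt_trichotomy i 1 with h | h | h
    · have : i = 0 := by omega
      subst this
      simp
    · subst h
      simp
    · have h1 : (1 : ℕ) ≠ i := by omega
      have h0 : i ≠ 0 := by omega
      simp [h1, h0]
  · apply max_le
    · have := (X - C a : K[X]).le_gaussNorm v zero_le_one 1
      simpa [coeff_X, coeff_C] using this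
    · have := (X - C a : K[X]).le_gaussNorm v zero_le_one 0
      simpa [coeff_X, coeff_C] using this

/-- **Gauss' lemma** for `∏ (X - a)`: the Gauss norm is `∏ max 1 |a|_v`. -/
lemma gaussNorm_rootPoly {v : AbsoluteValue K ℝ} (hna : IsNonarchimedean v) (S : Multiset K) :
    (rootPoly S).gaussNorm v 1 = (S.map fun a => max 1 (v a)).prod := by
  induction S using Multiset.induction_on with
  | empty =>
    have : (1 : K[X]) = C 1 := by simp
    rw [rootPoly_zero, this, gaussNorm_C]; simp
  | cons a S ih =>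
    rw [rootPoly_cons, gaussNorm_mul hna zero_lt_one, ih, gaussNorm_X_sub_C]
    simp

lemma abv_coeff_rootPoly_le {v : AbsoluteValue K ℝ} (hna : IsNonarchimedean v) (S : Multiset K)
    (i : ℕ) : v ((rootPoly S).coeff i) ≤ (S.map fun a => max 1 (v a)).prod := by
  have := (rootPoly S).le_gaussNorm v zero_le_one i
  rwa [one_pow, mul_one, gaussNorm_rootPoly hna] at this

/-! ### Mahler's inequality at an archimedean absolute value -/

lemma mahlerMeasure_rootPoly (T : Multiset ℂ) :
    (rootPoly T).mahlerMeasure = (T.map fun a => max 1 ‖a‖).prod := by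
  rw [mahlerMeasure_eq_leadingCoeff_mul_prod_roots, (monic_rootPoly T).leadingCoeff,
    roots_rootPoly]
  simp

lemma norm_coeff_rootPoly_le (φ : K →+* ℂ) (S : Multiset K) (i : ℕ) :
    ‖φ ((rootPoly S).coeff i)‖ ≤ 2 ^ Multiset.card S * (S.map fun a => max 1 ‖φ a‖).prod := by
  rw [coeff_rootPoly_map]
  refine (Polynomial.norm_coeff_le_choose_mul_mahlerMeasure i _).trans ?_
  rw [mahlerMeasure_rootPoly, natDegree_rootPoly, Multiset.card_map, Multiset.map_map]
  have h2 : (((Multiset.card S).choose i : ℕ) : ℝ) ≤ 2 ^ Multiset.card S := by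
    exact_mod_cast Nat.choose_le_two_pow _ _
  refine mul_le_mul_of_nonneg_right h2 ?_
  refine Multiset.prod_nonneg ?_
  intro x hx
  obtain ⟨a, -, rfl⟩ := Multiset.mem_map.mp hx
  exact le_trans zero_le_one (le_max_left _ _)

end RootPoly

/-! ### Packet heights -/

section Global

variable {Qb : Type*} [Field Qb]

/-- `∑_{a ∈ S} log (max 1 |a|_v)`. -/
noncomputable def logPlusSum (v : AbsoluteValue Qb ℝ) (S : Multiset Qb) : ℝ :=
  (S.map fun a => Real.log (max 1 (v a))).sum

lemma logPlusSum_nonneg (v : AbsoluteValue Qb ℝ) (S : Multiset Qb) : 0 ≤ logPlusSum v S := by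
  refine Multiset.sum_nonneg ?_
  intro x hx
  obtain ⟨a, -, rfl⟩ := Multiset.mem_map.mp hx
  exact Real.log_nonneg (le_max_left _ _)

lemma one_le_prod_max_one (v : AbsoluteValue Qb ℝ) (S : Multiset Qb) :
    1 ≤ (S.map fun a => max 1 (v a)).prod := by
  induction S using Multiset.induction_on with
  | empty => simp
  | cons a S ih =>
    rw [Multiset.map_cons, Multiset.prod_cons]
    exact one_le_mul_of_one_le_of_one_le (le_max_left _ _) ih

lemma logPlusSum_eq_log_prod (v : AbsoluteValue Qb ℝ) (S : Multiset Qb) :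
    logPlusSum v S = Real.log (S.map fun a => max 1 (v a)).prod := by
  rw [Real.log_multiset_prod, Multiset.map_map]
  · rfl
  · intro x hx
    obtain ⟨a, -, rfl⟩ := Multiset.mem_map.mp hx
    exact (lt_of_lt_of_le zero_lt_one (le_max_left _ _)).ne'

lemma logPlusSum_le_of_mem (v : AbsoluteValue Qb ℝ) {S : Multiset Qb} {a : Qb} (ha : a ∈ S) :
    Real.log (max 1 (v a)) ≤ logPlusSum v S := by
  obtain ⟨T, rfl⟩ := Multiset.exists_cons_of_mem ha
  have : logPlusSum v (a ::ₘ T) = Real.log (max 1 (v a)) + logPlusSum v T := by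
    simp [logPlusSum]
  rw [this]
  linarith [logPlusSum_nonneg v T]

/-- The packet height `∑_v ∑_{a ∈ S} log⁺ |a|_v` over the fixed places `abv`. -/
noncomputable def packetHeight (abv : Option Nat.Primes → AbsoluteValue Qb ℝ) (S : Multiset Qb) :
    ℝ :=
  logPlusSum (abv none) S + ∑ᶠ p : Nat.Primes, logPlusSum (abv (some p)) S

variable [Algebra ℚ Qb]

/-- **Galois descent**: a `Gal(Qb/ℚ)`-stable multiset is the root multiset of a rational
polynomial. -/
lemma exists_rat_rootPoly [IsGalois ℚ Qb] (S : Multiset Qb)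
    (hS : ∀ σ : Qb ≃ₐ[ℚ] Qb, S.map σ = S) :
    ∃ P : ℚ[X], P.map (algebraMap ℚ Qb) = rootPoly S := by
  rw [← Polynomial.mem_lifts, Polynomial.lifts_iff_coeff_lifts]
  intro n
  rw [InfiniteGalois.mem_range_algebraMap_iff_fixed]
  intro σ
  have h := coeff_rootPoly_map (σ : Qb →+* Qb) S n
  have h2 : S.map (σ : Qb →+* Qb) = S := hS σ
  rw [h2] at h
  exact h

end Global

/-! ### Comparison with the naive height of the coefficients -/

section Compare

variable {Qb : Type*} [Field Qb] [Algebra ℚ Qb]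
  (abv : Option Nat.Primes → AbsoluteValue Qb ℝ)

/-- (NC1f) Gauss' lemma, local form at the fixed place above `p`. -/
lemma lpf_coeff_le (hna : ∀ p, IsNonarchimedean (abv (some p)))
    (hrat : ∀ (p : Nat.Primes) (r : ℚ),
      abv (some p) (algebraMap ℚ Qb r) = ((padicNorm p r : ℚ) : ℝ))
    {S : Multiset Qb} {P : ℚ[X]} (hP : P.map (algebraMap ℚ Qb) = rootPoly S) (i : ℕ)
    (p : Nat.Primes) : lpf (P.coeff i) p ≤ logPlusSum (abv (some p)) S := by
  rw [lpf, logPlusSum_eq_log_prod]
  apply Real.log_le_log (lt_of_lt_of_le zero_lt_one (le_max_left _ _))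
  apply max_le (one_le_prod_max_one _ _)
  rw [← hrat, ← coeff_map, hP]
  exact abv_coeff_rootPoly_le (hna p) S i

/-- Outside the primes dividing a denominator of a coefficient, the local packet term vanishes. -/
lemma logPlusSum_eq_zero_of_notMem (hna : ∀ p, IsNonarchimedean (abv (some p)))
    (hrat : ∀ (p : Nat.Primes) (r : ℚ),
      abv (some p) (algebraMap ℚ Qb r) = ((padicNorm p r : ℚ) : ℝ))
    {S : Multiset Qb} {P : ℚ[X]} (hP : P.map (algebraMap ℚ Qb) = rootPoly S) {p : Nat.Primes}
    (hp : p ∉ P.support.biUnion fun i => primesOf (P.coeff i).den) :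
    logPlusSum (abv (some p)) S = 0 := by
  rw [logPlusSum_eq_log_prod, ← gaussNorm_rootPoly (hna p)]
  obtain ⟨i, hi⟩ := (rootPoly S).exists_eq_gaussNorm (abv (some p)) 1
  have h1 : (rootPoly S).gaussNorm (abv (some p)) 1 ≤ 1 := by
    rw [hi, one_pow, mul_one, ← hP, coeff_map, hrat]
    by_cases hi' : i ∈ P.support
    · exact padicNorm_le_one_of_notMem (fun h => hp (Finset.mem_biUnion.mpr ⟨i, hi', h⟩))
    · rw [notMem_support_iff.mp hi']; simp
  have h2 : 1 ≤ (rootPoly S).gaussNorm (abv (some p)) 1 := by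
    rw [gaussNorm_rootPoly (hna p)]; exact one_le_prod_max_one _ _
  rw [le_antisymm h1 h2, Real.log_one]

lemma finite_support_logPlusSum_of_rat (hna : ∀ p, IsNonarchimedean (abv (some p)))
    (hrat : ∀ (p : Nat.Primes) (r : ℚ),
      abv (some p) (algebraMap ℚ Qb r) = ((padicNorm p r : ℚ) : ℝ))
    {S : Multiset Qb} {P : ℚ[X]} (hP : P.map (algebraMap ℚ Qb) = rootPoly S) :
    (Function.support fun p : Nat.Primes => logPlusSum (abv (some p)) S).Finite := by
  refine (Finset.finite_toSet (P.support.biUnion fun i => primesOf (P.coeff i).den)).subset ?_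
  intro p hp
  by_contra hnot
  exact hp (logPlusSum_eq_zero_of_notMem abv hna hrat hP hnot)

/-- The finite part of the packet height of a Galois-stable multiset is a finite sum. -/
lemma finite_support_logPlusSum [IsGalois ℚ Qb] (hna : ∀ p, IsNonarchimedean (abv (some p)))
    (hrat : ∀ (p : Nat.Primes) (r : ℚ),
      abv (some p) (algebraMap ℚ Qb r) = ((padicNorm p r : ℚ) : ℝ))
    {S : Multiset Qb} (hS : ∀ σ : Qb ≃ₐ[ℚ] Qb, S.map σ = S) :
    (Function.support fun p : Nat.Primes => logPlusSum (abv (some p)) S).Finite := by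
  obtain ⟨P, hP⟩ := exists_rat_rootPoly S hS
  exact finite_support_logPlusSum_of_rat abv hna hrat hP

/-- (NC1oo) Mahler's inequality at the fixed archimedean place. -/
lemma log_max_one_abs_coeff_le (hoo : ∃ φ : Qb →+* ℂ, ∀ x, abv none x = ‖φ x‖)
    {S : Multiset Qb} {P : ℚ[X]} (hP : P.map (algebraMap ℚ Qb) = rootPoly S) (i : ℕ) :
    Real.log (max 1 |((P.coeff i : ℚ) : ℝ)|)
      ≤ Multiset.card S * Real.log 2 + logPlusSum (abv none) S := by
  obtain ⟨φ, hφ⟩ := hoo
  have h1 : |((P.coeff i : ℚ) : ℝ)| = ‖φ ((rootPoly S).coeff i)‖ := by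
    rw [← hP, coeff_map, eq_ratCast, map_ratCast, Complex.norm_ratCast]
  have h2 := norm_coeff_rootPoly_le φ S i
  have h3 : (S.map fun a => max 1 ‖φ a‖) = (S.map fun a => max 1 (abv none a)) :=
    Multiset.map_congr rfl fun a _ => by rw [hφ]
  rw [h3, ← h1] at h2
  have hprod := one_le_prod_max_one (abv none) S
  have h2pow : (1 : ℝ) ≤ 2 ^ Multiset.card S := one_le_pow₀ one_le_two
  rw [logPlusSum_eq_log_prod, ← Real.log_pow, ← Real.log_mul (by positivity) (by positivity)]
  apply Real.log_le_log (lt_of_lt_of_le zero_lt_one (le_max_left _ _))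
  exact max_le (one_le_mul_of_one_le_of_one_le h2pow hprod) h2

/-- (NC2) The naive height of every coefficient of the rational polynomial `∏_{a ∈ S} (T - a)`
is bounded by the packet height of `S`. -/
theorem log_max_num_den_coeff_le (hoo : ∃ φ : Qb →+* ℂ, ∀ x, abv none x = ‖φ x‖)
    (hna : ∀ p, IsNonarchimedean (abv (some p)))
    (hrat : ∀ (p : Nat.Primes) (r : ℚ),
      abv (some p) (algebraMap ℚ Qb r) = ((padicNorm p r : ℚ) : ℝ))
    {S : Multiset Qb} {P : ℚ[X]} (hP : P.map (algebraMap ℚ Qb) = rootPoly S) (i : ℕ) :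
    Real.log (max ((P.coeff i).num.natAbs : ℝ) ((P.coeff i).den : ℝ))
      ≤ packetHeight abv S + Multiset.card S * Real.log 2 := by
  rw [log_max_num_den, packetHeight]
  have h1 := log_max_one_abs_coeff_le abv hoo hP i
  have h2 : ∑ᶠ p : Nat.Primes, lpf (P.coeff i) p
      ≤ ∑ᶠ p : Nat.Primes, logPlusSum (abv (some p)) S := by
    refine finsum_le_finsum' ?_ (finite_support_logPlusSum_of_rat abv hna hrat hP) ?_
    · exact (Finset.finite_toSet _).subset (support_lpf_subset _)
    · intro p
      exact lpf_coeff_le abv hna hrat hP i p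
  linarith

end Compare

/-! ### Northcott -/

section Northcott

/-- Northcott over `ℚ` in naive form. -/
lemma finite_rat_log_max_le (B : ℝ) :
    {c : ℚ | Real.log (max (c.num.natAbs : ℝ) (c.den : ℝ)) ≤ B}.Finite := by
  refine (NumberField.finite_setOfPred_mulHeight₁_le ℚ (Real.exp B)).subset ?_
  intro c hc
  simp only [Set.mem_ofPred_eq] at hc ⊢
  rw [Rat.mulHeight₁_eq_max, Nat.cast_max]
  have hpos : (0 : ℝ) < max (c.num.natAbs : ℝ) (c.den : ℝ) :=
    lt_of_lt_of_le (by exact_mod_cast c.den_pos) (le_max_right _ _)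
  calc max (c.num.natAbs : ℝ) (c.den : ℝ)
      = Real.exp (Real.log (max (c.num.natAbs : ℝ) (c.den : ℝ))) := (Real.exp_log hpos).symm
    _ ≤ Real.exp B := Real.exp_le_exp.mpr hc

/-- Finitely many polynomials of bounded degree with coefficients in a finite set. -/
lemma finite_poly_of_coeff_mem {R : Type*} [Semiring R] (r : ℕ) {F : Set R} (hF : F.Finite) :
    {P : R[X] | P.natDegree ≤ r ∧ ∀ i, P.coeff i ∈ F}.Finite := by
  have hpi : {f : Fin (r + 1) → R | ∀ i, f i ∈ F}.Finite := Set.Finite.pi' fun _ => hF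
  refine (hpi.image fun f => ∑ i : Fin (r + 1), monomial (i : ℕ) (f i)).subset ?_
  rintro P ⟨hdeg, hcoeff⟩
  refine ⟨fun i => P.coeff i, fun i => hcoeff i, ?_⟩
  have h := P.as_sum_range' (r + 1) (by omega)
  simp only
  rw [Fin.sum_univ_eq_sum_range (fun i => monomial i (P.coeff i)) (r + 1)]
  exact h.symm

variable {Qb : Type*} [Field Qb] [Algebra ℚ Qb] [IsGalois ℚ Qb]
  (abv : Option Nat.Primes → AbsoluteValue Qb ℝ)

/-- (NC3) **Northcott for packets**: only finitely many elements of `Qb` lie in a Galois-stable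
multiset of cardinality `≤ r` and packet height `≤ B`. -/
theorem finite_packet_members (hoo : ∃ φ : Qb →+* ℂ, ∀ x, abv none x = ‖φ x‖)
    (hna : ∀ p, IsNonarchimedean (abv (some p)))
    (hrat : ∀ (p : Nat.Primes) (r : ℚ),
      abv (some p) (algebraMap ℚ Qb r) = ((padicNorm p r : ℚ) : ℝ))
    (r : ℕ) (B : ℝ) :
    {a : Qb | ∃ S : Multiset Qb, a ∈ S ∧ Multiset.card S ≤ r ∧
        (∀ σ : Qb ≃ₐ[ℚ] Qb, S.map σ = S) ∧ packetHeight abv S ≤ B}.Finite := by
  have hF := finite_rat_log_max_le (B + r * Real.log 2)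
  have hPs := finite_poly_of_coeff_mem r hF
  refine (hPs.biUnion (t := fun P : ℚ[X] => {a : Qb | a ∈ (P.map (algebraMap ℚ Qb)).roots})
    fun P _ => Multiset.finite_toSet _).subset ?_
  rintro a ⟨S, haS, hcard, hS, hB⟩
  obtain ⟨P, hP⟩ := exists_rat_rootPoly S hS
  simp only [Set.mem_iUnion, Set.mem_ofPred_eq]
  refine ⟨P, ⟨?_, fun i => ?_⟩, ?_⟩
  · rw [← Polynomial.natDegree_map (algebraMap ℚ Qb), hP, natDegree_rootPoly]
    exact hcard
  · refine (log_max_num_den_coeff_le abv hoo hna hrat hP i).trans ?_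
    have hlog2 : (0 : ℝ) ≤ Real.log 2 := Real.log_nonneg one_le_two
    have hc : (Multiset.card S : ℝ) ≤ r := by exact_mod_cast hcard
    nlinarith [mul_le_mul_of_nonneg_right hc hlog2]
  · rw [hP, roots_rootPoly]
    exact haS

/-- Vector form of (NC3): finitely many points `x : ι → Qb` occur in Galois-stable multisets of
points of cardinality `≤ r` all of whose coordinate packets have packet height `≤ B`. -/
theorem finite_packet_points (hoo : ∃ φ : Qb →+* ℂ, ∀ x, abv none x = ‖φ x‖)
    (hna : ∀ p, IsNonarchimedean (abv (some p)))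
    (hrat : ∀ (p : Nat.Primes) (r : ℚ),
      abv (some p) (algebraMap ℚ Qb r) = ((padicNorm p r : ℚ) : ℝ))
    {ι : Type*} [Finite ι] (r : ℕ) (B : ℝ) :
    {x : ι → Qb | ∃ D : Multiset (ι → Qb), x ∈ D ∧ Multiset.card D ≤ r ∧
        (∀ σ : Qb ≃ₐ[ℚ] Qb, D.map (fun y j => σ (y j)) = D) ∧
        ∀ j, packetHeight abv (D.map fun y => y j) ≤ B}.Finite := by
  have hfin := finite_packet_members abv hoo hna hrat r B
  refine (Set.Finite.pi' fun _ : ι => hfin).subset ?_
  rintro x ⟨D, hxD, hcard, hD, hB⟩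
  intro j
  refine ⟨D.map fun y => y j, Multiset.mem_map_of_mem _ hxD, by simpa using hcard, ?_, hB j⟩
  intro σ
  conv_rhs => rw [← hD σ]
  simp only [Multiset.map_map, Function.comp_def]

omit [IsGalois ℚ Qb] in
/-- A finite `Gal(Qb/ℚ)`-equivariant family gives a Galois-stable multiset. -/
lemma map_univ_val_stable {X : Type*} [Fintype X] [MulAction (Qb ≃ₐ[ℚ] Qb) X] (f : X → Qb)
    (hf : ∀ (σ : Qb ≃ₐ[ℚ] Qb) (x : X), f (σ • x) = σ (f x)) (σ : Qb ≃ₐ[ℚ] Qb) :
    ((Finset.univ : Finset X).val.map f).map σ = (Finset.univ : Finset X).val.map f := by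
  rw [Multiset.map_map]
  have h1 : (σ ∘ f : X → Qb) = f ∘ (MulAction.toPerm σ : Equiv.Perm X) := by
    funext x
    simp [hf]
  rw [h1, ← Multiset.map_map, Multiset.map_univ_val_equiv]

/-- Place-by-place majorants bound the packet height. -/
lemma packetHeight_le_of_forall_le (hna : ∀ p, IsNonarchimedean (abv (some p)))
    (hrat : ∀ (p : Nat.Primes) (r : ℚ),
      abv (some p) (algebraMap ℚ Qb r) = ((padicNorm p r : ℚ) : ℝ))
    {S : Multiset Qb} (hS : ∀ σ : Qb ≃ₐ[ℚ] Qb, S.map σ = S) {f : Option Nat.Primes → ℝ}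
    (hf : (Function.support fun p : Nat.Primes => f (some p)).Finite)
    (h : ∀ v, logPlusSum (abv v) S ≤ f v) :
    packetHeight abv S ≤ f none + ∑ᶠ p : Nat.Primes, f (some p) := by
  rw [packetHeight]
  have h2 : ∑ᶠ p : Nat.Primes, logPlusSum (abv (some p)) S ≤ ∑ᶠ p : Nat.Primes, f (some p) :=
    finsum_le_finsum' (finite_support_logPlusSum abv hna hrat hS) hf fun p => h (some p)
  linarith [h none]

end Northcott

end Fermat.Agent.S17.North
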