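import Mathlib
import Fermat.Agent.S17.North.Packet

/-!
# Northcott for Galois-stable packets of affine points (PROJECT H scratch, seam S-9 / B.15 glue)

Vector form of `North/Packet.lean`: the height of a finite Galois-stable multiset `D` of affine
points `y : ι → Qb` is `∑_v ∑_{y ∈ D} log max(1, max_j |y_j|_v)`; bounded cardinality and bounded
height leave finitely many points, finitely many packets, and (through an injective
parametrisation `x ↦ D_x`) finitely many `x`.
-/

set_option autoImplicit false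

namespace Fermat.Agent.S17.North

section Vec

variable {Qb : Type*} [Field Qb] {ι : Type*}

/-- The local height `log max(1, max_j |y_j|_v)` of an affine point. -/
noncomputable def logPlusVec (v : AbsoluteValue Qb ℝ) (y : ι → Qb) : ℝ :=
  Real.log (max 1 (⨆ j, v (y j)))

lemma logPlusVec_nonneg (v : AbsoluteValue Qb ℝ) (y : ι → Qb) : 0 ≤ logPlusVec v y :=
  Real.log_nonneg (le_max_left _ _)

/-- If one coordinate is `1` (affine chart of a projective point) the `max 1` is superfluous. -/
lemma logPlusVec_eq_of_eq_one [Finite ι] (v : AbsoluteValue Qb ℝ) {y : ι → Qb} {i0 : ι}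
    (h : y i0 = 1) : logPlusVec v y = Real.log (⨆ j, v (y j)) := by
  rw [logPlusVec, max_eq_right]
  have := le_ciSup (Finite.bddAbove_range fun j => v (y j)) i0
  simpa [h] using this

lemma log_max_one_coord_le [Finite ι] (v : AbsoluteValue Qb ℝ) (y : ι → Qb) (j : ι) :
    Real.log (max 1 (v (y j))) ≤ logPlusVec v y := by
  apply Real.log_le_log (lt_of_lt_of_le zero_lt_one (le_max_left _ _))
  exact max_le_max le_rfl (le_ciSup (Finite.bddAbove_range fun j => v (y j)) j)

lemma logPlusVec_eq_zero_of_forall_le_one (v : AbsoluteValue Qb ℝ) {y : ι → Qb}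
    (h : ∀ j, v (y j) ≤ 1) : logPlusVec v y = 0 := by
  rw [logPlusVec, max_eq_left (Real.iSup_le h zero_le_one), Real.log_one]

/-- `∑_{y ∈ D} log max(1, max_j |y_j|_v)`. -/
noncomputable def vecLocalSum (v : AbsoluteValue Qb ℝ) (D : Multiset (ι → Qb)) : ℝ :=
  (D.map (logPlusVec v)).sum

lemma vecLocalSum_nonneg (v : AbsoluteValue Qb ℝ) (D : Multiset (ι → Qb)) :
    0 ≤ vecLocalSum v D := by
  refine Multiset.sum_nonneg ?_
  intro x hx
  obtain ⟨y, -, rfl⟩ := Multiset.mem_map.mp hx
  exact logPlusVec_nonneg v y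

lemma logPlusSum_coord_le_vecLocalSum [Finite ι] (v : AbsoluteValue Qb ℝ)
    (D : Multiset (ι → Qb)) (j : ι) : logPlusSum v (D.map fun y => y j) ≤ vecLocalSum v D := by
  rw [logPlusSum, vecLocalSum, Multiset.map_map]
  exact Multiset.sum_map_le_sum_map _ _ fun y _ => log_max_one_coord_le v y j

/-- The height of a packet of affine points over the fixed places `abv`. -/
noncomputable def vecPacketHeight (abv : Option Nat.Primes → AbsoluteValue Qb ℝ)
    (D : Multiset (ι → Qb)) : ℝ :=
  vecLocalSum (abv none) D + ∑ᶠ p : Nat.Primes, vecLocalSum (abv (some p)) D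

lemma abv_le_one_of_logPlusSum_eq_zero (v : AbsoluteValue Qb ℝ) {S : Multiset Qb}
    (h : logPlusSum v S = 0) {a : Qb} (ha : a ∈ S) : v a ≤ 1 := by
  have h1 := logPlusSum_le_of_mem v ha
  rw [h] at h1
  by_contra hlt
  rw [not_le] at hlt
  have : 0 < Real.log (max 1 (v a)) := Real.log_pos (lt_max_of_lt_right hlt)
  linarith

lemma vecLocalSum_eq_zero_of_coord (v : AbsoluteValue Qb ℝ) {D : Multiset (ι → Qb)}
    (h : ∀ j, logPlusSum v (D.map fun y => y j) = 0) : vecLocalSum v D = 0 := by
  rw [vecLocalSum]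
  have : ∀ x ∈ D.map (logPlusVec v), x = 0 := by
    intro x hx
    obtain ⟨y, hy, rfl⟩ := Multiset.mem_map.mp hx
    refine logPlusVec_eq_zero_of_forall_le_one v fun j => ?_
    exact abv_le_one_of_logPlusSum_eq_zero v (h j) (Multiset.mem_map_of_mem (fun y => y j) hy)
  rw [Multiset.eq_replicate_card.mpr this]
  simp

end Vec

section VecGlobal

variable {Qb : Type*} [Field Qb] [Algebra ℚ Qb] [IsGalois ℚ Qb] {ι : Type*} [Finite ι]
  (abv : Option Nat.Primes → AbsoluteValue Qb ℝ)

omit [Finite ι] [IsGalois ℚ Qb] in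
lemma coord_stable {D : Multiset (ι → Qb)}
    (hD : ∀ σ : Qb ≃ₐ[ℚ] Qb, D.map (fun y j => σ (y j)) = D) (j : ι) (σ : Qb ≃ₐ[ℚ] Qb) :
    (D.map fun y => y j).map σ = D.map fun y => y j := by
  conv_rhs => rw [← hD σ]
  simp only [Multiset.map_map, Function.comp_def]

/-- The finite part of the height of a Galois-stable packet of points is a finite sum. -/
lemma finite_support_vecLocalSum (hna : ∀ p, IsNonarchimedean (abv (some p)))
    (hrat : ∀ (p : Nat.Primes) (r : ℚ),
      abv (some p) (algebraMap ℚ Qb r) = ((padicNorm p r : ℚ) : ℝ))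
    {D : Multiset (ι → Qb)} (hD : ∀ σ : Qb ≃ₐ[ℚ] Qb, D.map (fun y j => σ (y j)) = D) :
    (Function.support fun p : Nat.Primes => vecLocalSum (abv (some p)) D).Finite := by
  have hfin : (⋃ j : ι, Function.support fun p : Nat.Primes =>
      logPlusSum (abv (some p)) (D.map fun y => y j)).Finite :=
    Set.finite_iUnion fun j => finite_support_logPlusSum abv hna hrat (coord_stable hD j)
  refine hfin.subset ?_
  intro p hp
  by_contra hnot
  apply hp
  refine vecLocalSum_eq_zero_of_coord _ fun j => ?_
  by_contra hne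
  exact hnot (Set.mem_iUnion.mpr ⟨j, hne⟩)

/-- Every coordinate packet has packet height at most the height of the packet of points. -/
lemma packetHeight_coord_le (hna : ∀ p, IsNonarchimedean (abv (some p)))
    (hrat : ∀ (p : Nat.Primes) (r : ℚ),
      abv (some p) (algebraMap ℚ Qb r) = ((padicNorm p r : ℚ) : ℝ))
    {D : Multiset (ι → Qb)} (hD : ∀ σ : Qb ≃ₐ[ℚ] Qb, D.map (fun y j => σ (y j)) = D) (j : ι) :
    packetHeight abv (D.map fun y => y j) ≤ vecPacketHeight abv D :=
  packetHeight_le_of_forall_le abv hna hrat (coord_stable hD j)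
    (f := fun v => vecLocalSum (abv v) D) (finite_support_vecLocalSum abv hna hrat hD)
    fun v => logPlusSum_coord_le_vecLocalSum (abv v) D j

/-- `∑_v ∑_y = ∑_y ∑_v` for a Galois-stable packet of points. -/
lemma vecPacketHeight_eq_sum (hna : ∀ p, IsNonarchimedean (abv (some p)))
    (hrat : ∀ (p : Nat.Primes) (r : ℚ),
      abv (some p) (algebraMap ℚ Qb r) = ((padicNorm p r : ℚ) : ℝ))
    {D : Multiset (ι → Qb)} (hD : ∀ σ : Qb ≃ₐ[ℚ] Qb, D.map (fun y j => σ (y j)) = D) :
    vecPacketHeight abv D
      = (D.map fun y => logPlusVec (abv none) y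
          + ∑ᶠ p : Nat.Primes, logPlusVec (abv (some p)) y).sum := by
  have hfin := finite_support_vecLocalSum abv hna hrat hD
  set T : Finset Nat.Primes := hfin.toFinset with hT
  have hsub : (Function.support fun p : Nat.Primes => vecLocalSum (abv (some p)) D) ⊆ ↑T := by
    rw [hT]; simp
  have hy : ∀ y ∈ D, (Function.support fun p : Nat.Primes => logPlusVec (abv (some p)) y)
      ⊆ ↑T := by
    intro y hyD p hp
    rw [hT, Set.Finite.coe_toFinset]
    intro h0
    apply hp
    have hle : logPlusVec (abv (some p)) y ≤ vecLocalSum (abv (some p)) D := by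
      obtain ⟨D', rfl⟩ := Multiset.exists_cons_of_mem hyD
      have : vecLocalSum (abv (some p)) (y ::ₘ D')
          = logPlusVec (abv (some p)) y + vecLocalSum (abv (some p)) D' := by
        simp [vecLocalSum]
      rw [this]
      linarith [vecLocalSum_nonneg (abv (some p)) D']
    have h0' : vecLocalSum (abv (some p)) D = 0 := h0
    exact le_antisymm (hle.trans h0'.le) (logPlusVec_nonneg _ _)
  rw [vecPacketHeight, finsum_eq_sum_of_support_subset _ hsub]
  have h1 : (D.map fun y => logPlusVec (abv none) y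
        + ∑ᶠ p : Nat.Primes, logPlusVec (abv (some p)) y)
      = D.map fun y => logPlusVec (abv none) y + ∑ p ∈ T, logPlusVec (abv (some p)) y :=
    Multiset.map_congr rfl fun y hyD => by
      rw [finsum_eq_sum_of_support_subset _ (hy y hyD)]
  rw [h1, Multiset.sum_map_add, Multiset.sum_map_sum]
  rfl

/-- **Northcott for packets of affine points.** -/
theorem finite_points_of_vecPacketHeight_le
    (hoo : ∃ φ : Qb →+* ℂ, ∀ x, abv none x = ‖φ x‖)
    (hna : ∀ p, IsNonarchimedean (abv (some p)))
    (hrat : ∀ (p : Nat.Primes) (r : ℚ),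
      abv (some p) (algebraMap ℚ Qb r) = ((padicNorm p r : ℚ) : ℝ))
    (r : ℕ) (B : ℝ) :
    {y : ι → Qb | ∃ D : Multiset (ι → Qb), y ∈ D ∧ Multiset.card D ≤ r ∧
        (∀ σ : Qb ≃ₐ[ℚ] Qb, D.map (fun y j => σ (y j)) = D) ∧
        vecPacketHeight abv D ≤ B}.Finite := by
  refine (finite_packet_points abv hoo hna hrat (ι := ι) r B).subset ?_
  rintro y ⟨D, hyD, hcard, hD, hB⟩
  exact ⟨D, hyD, hcard, hD, fun j => (packetHeight_coord_le abv hna hrat hD j).trans hB⟩

end VecGlobal

/-! ### Finitely many packets, finitely many parameters -/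

section Param

/-- Finitely many multisets of bounded cardinality with members in a finite set. -/
lemma finite_multiset_of_mem_of_card_le {X : Type*} {s : Set X} (hs : s.Finite) (g : ℕ) :
    {m : Multiset X | Multiset.card m ≤ g ∧ ∀ a ∈ m, a ∈ s}.Finite := by
  have : Finite s := hs
  have hl := List.finite_length_le s g
  refine (hl.image fun l : List s => ((l.map Subtype.val : List X) : Multiset X)).subset ?_
  rintro m ⟨hcard, hmem⟩
  induction m using Quotient.inductionOn with
  | h l =>
    refine ⟨l.pmap (fun a ha => (⟨a, ha⟩ : s)) (fun a ha => hmem a (by simpa using ha)), ?_, ?_⟩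
    · simpa using hcard
    · simp [List.map_pmap]

variable {Qb : Type*} [Field Qb] [Algebra ℚ Qb] [IsGalois ℚ Qb] {ι : Type*} [Finite ι]
  (abv : Option Nat.Primes → AbsoluteValue Qb ℝ)

/-- **B.15 in abstract form.** `x ↦ pts x` an injective parametrisation by multisets of at most
`g` points of a set `X` with injective, Galois-equivariantly stable affine coordinates `c`:
only finitely many `x` have height `≤ B`. -/
theorem finite_of_vecPacketHeight_le (hoo : ∃ φ : Qb →+* ℂ, ∀ x, abv none x = ‖φ x‖)
    (hna : ∀ p, IsNonarchimedean (abv (some p)))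
    (hrat : ∀ (p : Nat.Primes) (r : ℚ),
      abv (some p) (algebraMap ℚ Qb r) = ((padicNorm p r : ℚ) : ℝ))
    {Γ X : Type*} (pts : Γ → Multiset X) (hinj : Function.Injective pts)
    (c : X → ι → Qb) (hc : Function.Injective c) (g : ℕ)
    (hcard : ∀ x, Multiset.card (pts x) ≤ g)
    (hstab : ∀ (x : Γ) (σ : Qb ≃ₐ[ℚ] Qb),
      ((pts x).map c).map (fun y j => σ (y j)) = (pts x).map c) (B : ℝ) :
    {x : Γ | vecPacketHeight abv ((pts x).map c) ≤ B}.Finite := by
  have hY := finite_points_of_vecPacketHeight_le abv hoo hna hrat (ι := ι) g B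
  have hP : (c ⁻¹' {y : ι → Qb | ∃ D : Multiset (ι → Qb), y ∈ D ∧ Multiset.card D ≤ g ∧
        (∀ σ : Qb ≃ₐ[ℚ] Qb, D.map (fun y j => σ (y j)) = D) ∧
        vecPacketHeight abv D ≤ B}).Finite := hY.preimage hc.injOn
  have hM := finite_multiset_of_mem_of_card_le hP g
  refine (hM.preimage hinj.injOn).subset ?_
  intro x hx
  refine ⟨hcard x, fun a ha => ?_⟩
  exact ⟨(pts x).map c, Multiset.mem_map_of_mem c ha, by simpa using hcard x, hstab x, hx⟩

end Param

end Fermat.Agent.S17.North
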