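import Mathlib
import Fermat.Agent.S17.North.Glue

/-!
# Northcott for stable effective divisors (PROJECT H scratch, seam S-9 / B.15 glue)

`North/Glue.lean` for packets given as finitely supported functions `D : X →₀ ℤ`, `0 ≤ D`,
constant on the orbits of `Gal(Qb/ℚ)` acting on the set of points `X`; affine coordinates `c`
only required to be injective on a set `s` of points containing all supports.
-/

set_option autoImplicit false

namespace Fermat.Agent.S17.North

section OnSet

variable {Qb : Type*} [Field Qb] [Algebra ℚ Qb] [IsGalois ℚ Qb] {ι : Type*} [Finite ι]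
  (abv : Option Nat.Primes → AbsoluteValue Qb ℝ)

/-- `finite_of_vecPacketHeight_le` with coordinates injective on a set `s` containing all points
of all packets. -/
theorem finite_of_vecPacketHeight_le_on (hoo : ∃ φ : Qb →+* ℂ, ∀ x, abv none x = ‖φ x‖)
    (hna : ∀ p, IsNonarchimedean (abv (some p)))
    (hrat : ∀ (p : Nat.Primes) (r : ℚ),
      abv (some p) (algebraMap ℚ Qb r) = ((padicNorm p r : ℚ) : ℝ))
    {Γ X : Type*} (pts : Γ → Multiset X) (hinj : Function.Injective pts) (s : Set X)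
    (hs : ∀ x, ∀ P ∈ pts x, P ∈ s) (c : X → ι → Qb) (hc : Set.InjOn c s) (g : ℕ)
    (hcard : ∀ x, Multiset.card (pts x) ≤ g)
    (hstab : ∀ (x : Γ) (σ : Qb ≃ₐ[ℚ] Qb),
      ((pts x).map c).map (fun y j => σ (y j)) = (pts x).map c) (B : ℝ) :
    {x : Γ | vecPacketHeight abv ((pts x).map c) ≤ B}.Finite := by
  have hY := finite_points_of_vecPacketHeight_le abv hoo hna hrat (ι := ι) g B
  have hP : (s ∩ c ⁻¹' {y : ι → Qb | ∃ D : Multiset (ι → Qb), y ∈ D ∧ Multiset.card D ≤ g ∧
        (∀ σ : Qb ≃ₐ[ℚ] Qb, D.map (fun y j => σ (y j)) = D) ∧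
        vecPacketHeight abv D ≤ B}).Finite := by
    refine Set.Finite.of_finite_image (hY.subset ?_) (hc.mono Set.inter_subset_left)
    rintro _ ⟨P, ⟨-, hP⟩, rfl⟩
    exact hP
  have hM := finite_multiset_of_mem_of_card_le hP g
  refine (hM.preimage hinj.injOn).subset ?_
  intro x hx
  refine ⟨hcard x, fun a ha => ⟨hs x a ha, ?_⟩⟩
  exact ⟨(pts x).map c, Multiset.mem_map_of_mem c ha, by simpa using hcard x, hstab x, hx⟩

end OnSet

/-! ### Finitely supported functions as multisets -/

section Finsupp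

variable {G X : Type*} [Group G] [MulAction G X]

lemma mapDomain_smul_eq_of_stable {M : Type*} [AddCommMonoid M] (Z : X →₀ M)
    (hZ : ∀ (σ : G) (P : X), Z (σ • P) = Z P) (σ : G) :
    Z.mapDomain (fun P => σ • P) = Z := by
  ext Q
  have hinj : Function.Injective (fun P : X => σ • P) := MulAction.injective σ
  have hQ : Q = (fun P : X => σ • P) (σ⁻¹ • Q) := (smul_inv_smul σ Q).symm
  rw [hQ, Finsupp.mapDomain_apply hinj]
  exact (hZ σ _).symm

lemma toMultiset_map_smul_of_stable (Z : X →₀ ℕ) (hZ : ∀ (σ : G) (P : X), Z (σ • P) = Z P)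
    (σ : G) : (Finsupp.toMultiset Z).map (fun P => σ • P) = Finsupp.toMultiset Z := by
  rw [Finsupp.toMultiset_map, mapDomain_smul_eq_of_stable Z hZ σ]

omit [Group G] [MulAction G X] in
lemma sum_map_toMultiset (Z : X →₀ ℕ) (f : X → ℝ) :
    ((Finsupp.toMultiset Z).map f).sum = ∑ P ∈ Z.support, (Z P : ℝ) * f P := by
  classical
  induction Z using Finsupp.induction with
  | zero => simp
  | single_add a n Z ha hn ih =>
    rw [map_add, Multiset.map_add, Multiset.sum_add, ih, Finsupp.toMultiset_single,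
      Multiset.map_nsmul, Multiset.sum_nsmul]
    have hdisj : Disjoint (Finsupp.single a n).support Z.support := by
      rw [Finsupp.support_single a hn, Finset.disjoint_singleton_left]
      simpa using ha
    rw [Finsupp.support_add_eq hdisj, Finset.sum_union hdisj,
      Finsupp.support_single a hn, Finset.sum_singleton]
    have h1 : (Finsupp.single a n + Z) a = n := by
      rw [Finsupp.add_apply, Finsupp.single_eq_same, Finsupp.notMem_support_iff.mp ha, add_zero]
    have h2 : ∀ P ∈ Z.support, (Finsupp.single a n + Z) P = Z P := by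
      intro P hP
      have : P ≠ a := fun h => ha (h ▸ hP)
      rw [Finsupp.add_apply, Finsupp.single_eq_of_ne this, zero_add]
    have h3 : ∑ P ∈ Z.support, (((Finsupp.single a n + Z) P : ℕ) : ℝ) * f P
        = ∑ P ∈ Z.support, (Z P : ℝ) * f P :=
      Finset.sum_congr rfl fun P hP => by rw [h2 P hP]
    rw [h1, h3, nsmul_eq_mul]
    simp

omit [Group G] [MulAction G X] in
lemma card_toMultiset_eq_sum (Z : X →₀ ℕ) :
    Multiset.card (Finsupp.toMultiset Z) = ∑ P ∈ Z.support, Z P := by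
  rw [Finsupp.card_toMultiset]; rfl

omit [Group G] [MulAction G X] in
lemma toMultiset_inj {Z Z' : X →₀ ℕ} (h : Finsupp.toMultiset Z = Finsupp.toMultiset Z') :
    Z = Z' := by
  classical
  have := congrArg Multiset.toFinsupp h
  simpa using this

/-- The effective divisor `D ≥ 0` as a function to `ℕ`. -/
noncomputable def natPart (D : X →₀ ℤ) : X →₀ ℕ := D.mapRange Int.toNat Int.toNat_zero

omit [Group G] [MulAction G X] in
lemma natPart_apply (D : X →₀ ℤ) (P : X) : natPart D P = (D P).toNat := by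
  rw [natPart, Finsupp.mapRange_apply]

omit [Group G] [MulAction G X] in
lemma natPart_cast {D : X →₀ ℤ} (hD : ∀ P, 0 ≤ D P) (P : X) : ((natPart D P : ℕ) : ℤ) = D P := by
  rw [natPart_apply, Int.toNat_of_nonneg (hD P)]

omit [Group G] [MulAction G X] in
lemma support_natPart {D : X →₀ ℤ} (hD : ∀ P, 0 ≤ D P) : (natPart D).support = D.support := by
  ext P
  rw [Finsupp.mem_support_iff, Finsupp.mem_support_iff, ← natPart_cast hD P]
  simp

omit [Group G] [MulAction G X] in
lemma natPart_injOn {D E : X →₀ ℤ} (hD : ∀ P, 0 ≤ D P) (hE : ∀ P, 0 ≤ E P)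
    (h : natPart D = natPart E) : D = E := by
  ext P
  rw [← natPart_cast hD P, ← natPart_cast hE P, h]

end Finsupp

/-! ### Northcott for stable effective divisors -/

section Divisor

variable {Qb : Type*} [Field Qb] [Algebra ℚ Qb] [IsGalois ℚ Qb] {ι : Type*} [Finite ι]
  (abv : Option Nat.Primes → AbsoluteValue Qb ℝ) {X : Type*} [MulAction (Qb ≃ₐ[ℚ] Qb) X]

/-- The multiset of affine points of an effective divisor. -/
noncomputable def divPoints (c : X → ι → Qb) (D : X →₀ ℤ) : Multiset (ι → Qb) :=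
  (Finsupp.toMultiset (natPart D)).map c

omit [IsGalois ℚ Qb] [Finite ι] in
lemma divPoints_stable {c : X → ι → Qb}
    (hcE : ∀ (σ : Qb ≃ₐ[ℚ] Qb) (P : X) (i : ι), c (σ • P) i = σ (c P i)) {D : X →₀ ℤ}
    (hD : ∀ (σ : Qb ≃ₐ[ℚ] Qb) (P : X), D (σ • P) = D P) (σ : Qb ≃ₐ[ℚ] Qb) :
    (divPoints c D).map (fun y j => σ (y j)) = divPoints c D := by
  have hN : ∀ (τ : Qb ≃ₐ[ℚ] Qb) (P : X), natPart D (τ • P) = natPart D P := by
    intro τ P
    rw [natPart_apply, natPart_apply, hD]
  rw [divPoints, Multiset.map_map]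
  have h1 : ((fun (y : ι → Qb) j => σ (y j)) ∘ c) = c ∘ fun P => σ • P := by
    funext P j
    simp [hcE]
  rw [h1, ← Multiset.map_map, toMultiset_map_smul_of_stable (natPart D) hN σ]

/-- The height of a stable effective divisor, `∑_v ∑_P` form `=` `∑_P n_P ∑_v` form. -/
lemma vecPacketHeight_divPoints (hna : ∀ p, IsNonarchimedean (abv (some p)))
    (hrat : ∀ (p : Nat.Primes) (r : ℚ),
      abv (some p) (algebraMap ℚ Qb r) = ((padicNorm p r : ℚ) : ℝ))
    {c : X → ι → Qb}
    (hcE : ∀ (σ : Qb ≃ₐ[ℚ] Qb) (P : X) (i : ι), c (σ • P) i = σ (c P i)) {D : X →₀ ℤ}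
    (hpos : ∀ P, 0 ≤ D P) (hD : ∀ (σ : Qb ≃ₐ[ℚ] Qb) (P : X), D (σ • P) = D P) :
    vecPacketHeight abv (divPoints c D)
      = ∑ P ∈ D.support, (D P : ℝ) * (logPlusVec (abv none) (c P)
          + ∑ᶠ p : Nat.Primes, logPlusVec (abv (some p)) (c P)) := by
  rw [vecPacketHeight_eq_sum abv hna hrat (divPoints_stable hcE hD), divPoints, Multiset.map_map,
    sum_map_toMultiset, support_natPart hpos]
  refine Finset.sum_congr rfl fun P _ => ?_
  have : ((natPart D P : ℕ) : ℝ) = (D P : ℝ) := by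
    rw [← natPart_cast hpos P]; simp
  rw [this]
  rfl

/-- **B.15 for divisors.** `x ↦ D_x` injective, `D_x ≥ 0` stable of degree `≤ g` supported in
`s`, `c` equivariant affine coordinates injective on `s`: finitely many `x` of height `≤ B`. -/
theorem finite_of_divisor_height_le (hoo : ∃ φ : Qb →+* ℂ, ∀ x, abv none x = ‖φ x‖)
    (hna : ∀ p, IsNonarchimedean (abv (some p)))
    (hrat : ∀ (p : Nat.Primes) (r : ℚ),
      abv (some p) (algebraMap ℚ Qb r) = ((padicNorm p r : ℚ) : ℝ))
    {Γ : Type*} (Dx : Γ → X →₀ ℤ) (hinj : Function.Injective Dx)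
    (hpos : ∀ x P, 0 ≤ Dx x P)
    (hstab : ∀ (x : Γ) (σ : Qb ≃ₐ[ℚ] Qb) (P : X), Dx x (σ • P) = Dx x P) (g : ℕ)
    (hdeg : ∀ x, ∑ P ∈ (Dx x).support, Dx x P ≤ g) (s : Set X)
    (hs : ∀ x, ∀ P ∈ (Dx x).support, P ∈ s) (c : X → ι → Qb) (hc : Set.InjOn c s)
    (hcE : ∀ (σ : Qb ≃ₐ[ℚ] Qb) (P : X) (i : ι), c (σ • P) i = σ (c P i)) (B : ℝ) :
    {x : Γ | ∑ P ∈ (Dx x).support, (Dx x P : ℝ) * (logPlusVec (abv none) (c P)
        + ∑ᶠ p : Nat.Primes, logPlusVec (abv (some p)) (c P)) ≤ B}.Finite := by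
  have hinj' : Function.Injective fun x => Finsupp.toMultiset (natPart (Dx x)) := by
    intro x y hxy
    have h1 : natPart (Dx x) = natPart (Dx y) := toMultiset_inj hxy
    exact hinj (natPart_injOn (hpos x) (hpos y) h1)
  have hcard : ∀ x, Multiset.card (Finsupp.toMultiset (natPart (Dx x))) ≤ g := by
    intro x
    rw [card_toMultiset_eq_sum, support_natPart (hpos x)]
    have h2 : ((∑ P ∈ (Dx x).support, natPart (Dx x) P : ℕ) : ℤ) ≤ g := by
      rw [Nat.cast_sum]
      refine le_trans (le_of_eq ?_) (hdeg x)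
      exact Finset.sum_congr rfl fun P _ => natPart_cast (hpos x) P
    exact_mod_cast h2
  have h := finite_of_vecPacketHeight_le_on abv hoo hna hrat
    (fun x => Finsupp.toMultiset (natPart (Dx x))) hinj' s
    (fun x P hP => hs x P (by
      rw [Finsupp.mem_toMultiset, support_natPart (hpos x)] at hP; exact hP))
    c hc g hcard (fun x σ => divPoints_stable hcE (hstab x) σ) B
  refine h.subset ?_
  intro x hx
  simp only [Set.mem_ofPred_eq] at hx ⊢
  have := vecPacketHeight_divPoints abv hna hrat hcE (hpos x) (hstab x)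
  rw [divPoints] at this
  rw [this]
  exact hx

end Divisor

end Fermat.Agent.S17.North
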