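import Fermat.Agent.S17.Ht.Places
import Fermat.Agent.S17.North.Glue

/-!
# Northcott for packets at the fixed places of `Qbar` (PROJECT H scratch, B.15 glue)

Instantiation of `North/Packet.lean` and `North/Glue.lean` at the fixed absolute values
`Ht.absAt` of `Qbar = AlgebraicClosure ℚ` (file `Ht/Places.lean`), in the language `Ht.totalLam`.
-/

set_option autoImplicit false

namespace Fermat.Agent.S17.North

open Fermat.Agent.S17.Ht

lemma absAt_some_algebraMap (p : Nat.Primes) (r : ℚ) :
    absAt (some p) (algebraMap ℚ Qbar r) = ((padicNorm p r : ℚ) : ℝ) := by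
  rw [eq_ratCast]; exact absAt_some_rat p r

/-- (NC3) at the fixed places of `Qbar`. -/
theorem finite_packet_members_Qbar (r : ℕ) (B : ℝ) :
    {a : Qbar | ∃ S : Multiset Qbar, a ∈ S ∧ Multiset.card S ≤ r ∧
        (∀ σ : GQ, S.map σ = S) ∧ packetHeight absAt S ≤ B}.Finite :=
  finite_packet_members absAt ⟨complexEmbedding, absAt_none⟩ isNonarchimedean_absAt_some
    absAt_some_algebraMap r B

variable {ι : Type*} [Finite ι]

lemma logPlusVec_absAt_eq_lam (v : Pl) {y : ι → Qbar} {i0 : ι} (h : y i0 = 1) :
    logPlusVec (absAt v) y = lam v y := by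
  rw [logPlusVec_eq_of_eq_one (absAt v) h]; rfl

/-- The height of a Galois-stable packet of affine points (one coordinate `= 1`) is the sum of
the `totalLam` of its members. -/
lemma vecPacketHeight_absAt_eq_sum_totalLam {D : Multiset (ι → Qbar)}
    (hD : ∀ σ : GQ, D.map (fun y j => σ (y j)) = D) (i0 : ι) (h1 : ∀ y ∈ D, y i0 = 1) :
    vecPacketHeight absAt D = (D.map totalLam).sum := by
  rw [vecPacketHeight_eq_sum absAt isNonarchimedean_absAt_some absAt_some_algebraMap hD]
  refine congrArg Multiset.sum (Multiset.map_congr rfl fun y hy => ?_)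
  rw [totalLam, logPlusVec_absAt_eq_lam none (h1 y hy)]
  congr 1
  exact finsum_congr fun p => logPlusVec_absAt_eq_lam (some p) (h1 y hy)

/-- **B.15 in the language of `Ht/Places.lean`.** `x ↦ pts x` an injective parametrisation by
multisets of at most `g` points of `X`; `c` injective affine coordinates (coordinate `i0` is `1`)
such that every packet `(pts x).map c` is Galois-stable: only finitely many `x` have
`∑_{P ∈ pts x} totalLam (c P) ≤ B`. -/
theorem finite_of_sum_totalLam_le {Γ X : Type*} (pts : Γ → Multiset X)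
    (hinj : Function.Injective pts) (c : X → ι → Qbar) (hc : Function.Injective c) (i0 : ι)
    (hc1 : ∀ P, c P i0 = 1) (g : ℕ) (hcard : ∀ x, Multiset.card (pts x) ≤ g)
    (hstab : ∀ (x : Γ) (σ : GQ), ((pts x).map c).map (fun y j => σ (y j)) = (pts x).map c)
    (B : ℝ) : {x : Γ | ((pts x).map fun P => totalLam (c P)).sum ≤ B}.Finite := by
  have h := finite_of_vecPacketHeight_le absAt ⟨complexEmbedding, absAt_none⟩
    isNonarchimedean_absAt_some absAt_some_algebraMap pts hinj c hc g hcard hstab B
  refine h.subset ?_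
  intro x hx
  simp only [Set.mem_ofPred_eq] at hx ⊢
  rw [vecPacketHeight_absAt_eq_sum_totalLam (hstab x) i0
    (fun y hy => by obtain ⟨P, -, rfl⟩ := Multiset.mem_map.mp hy; exact hc1 P), Multiset.map_map]
  exact hx

end Fermat.Agent.S17.North
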