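import Fermat.Agent.S17.Ht.Packets
import Fermat.Agent.S17.North.AtPlaces
import Fermat.Agent.S17.North.Divisor

/-!
# B.15 (Northcott) for stable effective divisors, in the language of `Ht/Packets.lean`
(PROJECT H scratch, seam S-9 glue)
-/

set_option autoImplicit false

namespace Fermat.Agent.S17.North

open Fermat.Agent.S17.Ht

variable {ι : Type*} [Finite ι] {X : Type*} [MulAction GQ X]

/-- **B.15 = H0.20, divisor form.** `x ↦ D_x` injective with `D_x ≥ 0` stable of degree `≤ g`,
supported in a set `s` of points on which the equivariant affine coordinates `xt`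
(coordinate `i0` equal to `1`) are injective: for every `B` only finitely many `x` have
`h(D_x) = ∑_P n_P · totalLam (xt P) ≤ B`. -/
theorem finite_of_sum_mul_totalLam_le {Γ : Type*} (Dx : Γ → X →₀ ℤ)
    (hinj : Function.Injective Dx) (hpos : ∀ x P, 0 ≤ Dx x P) (hstab : ∀ x, Stable (Dx x))
    (g : ℕ) (hdeg : ∀ x, ∑ P ∈ (Dx x).support, Dx x P ≤ g) (s : Set X)
    (hs : ∀ x, ∀ P ∈ (Dx x).support, P ∈ s) (xt : X → ι → Qbar) (hxt : Set.InjOn xt s)
    (hE : EquivarT xt) (i0 : ι) (h1 : ∀ P ∈ s, xt P i0 = 1) (B : ℝ) :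
    {x : Γ | ∑ P ∈ (Dx x).support, (Dx x P : ℝ) * totalLam (xt P) ≤ B}.Finite := by
  have h := finite_of_divisor_height_le absAt ⟨complexEmbedding, absAt_none⟩
    isNonarchimedean_absAt_some absAt_some_algebraMap Dx hinj hpos hstab g hdeg s hs xt hxt hE B
  refine h.subset ?_
  intro x hx
  simp only [Set.mem_ofPred_eq] at hx ⊢
  refine le_of_eq_of_le (Finset.sum_congr rfl fun P hP => ?_) hx
  have hP1 := h1 P (hs x P hP)
  rw [totalLam, logPlusVec_absAt_eq_lam none hP1]
  congr 2
  exact finsum_congr fun p => logPlusVec_absAt_eq_lam (some p) hP1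

end Fermat.Agent.S17.North
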